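import Fermat.Agent.S36.Mod3.Spec
import Fermat.Agent.A2.Mod.H816.L8
import Fermat.Agent.S24.FFFinite

/-!
# S36 / MOD3 leaf `LeafFF` (helper439)

`x = j · j_q · j_{q²}` at level `M q q`:

* `x` is transcendental over `E` (pole of order `1 + q + q²` at `∞`);
* `F_{Mqq}` is finite over `E(x)` (finite over `E(j)` by the degree formula, then exchange);
* `E` is algebraically closed in `F_{Mqq}` (`A2.Mod.H816.mem_range_of_isAlgebraic`, any level).

Main result: `leafFF : Mod3.LeafFF` (exact frozen leaf of `Mod3/Spec.lean`).
The auxiliary statements hold at every level `N ≠ 0` and for every product of `j_d`'s.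
-/

set_option autoImplicit false
set_option linter.unusedSectionVars false
set_option synthInstance.maxHeartbeats 400000
set_option maxHeartbeats 1600000

noncomputable section

namespace Fermat.Agent.S36.Mod3.H439

open ModularCurve IntermediateField
open Fermat.Agent.A2.Mod Fermat.Agent.A2.Mod.H816

variable (E : IntermediateField ℚ A2.Qb)

/-- `j` is transcendental over `E` at every level. -/
theorem transcendental_j1_h439 (N : ℕ) :
    Transcendental E (jE E N 1 (one_dvd N)) := by
  refine transcendental_of_addVal_neg (vInf E N) (fun c hc => vInf_algebraMap E N hc)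
    (a := -((1 : ℕ) : ℤ)) (by norm_num) (vInf_jE E N 1 (one_dvd N))

/-- `F_N` is finite over `E(j)` at every level `N ≠ 0`. -/
theorem finiteDimensional_j1_h439 (N : ℕ) (hN : N ≠ 0) :
    FiniteDimensional (adjoin E ({jE E N 1 (one_dvd N)} : Set (FE E N))) (FE E N) := by
  have h := Fermat.Agent.S28.H988.relfinrank_jField_full_eq E N hN
    (fun p hp _ => natCast_ne_zero_E E hp.ne_zero)
  rw [Fermat.Agent.S28.jField] at h
  have hpos : 0 < Module.finrank (adjoin E ({jE E N 1 (one_dvd N)} : Set (FE E N))) (FE E N) := by
    rw [finrank_adjoin_eq_relfinrank, H873.coe_jE, qExpand_one_apply, FE_eq_fullC, h]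
    exact Fermat.Agent.S28.H988.dedekindPsi_pos N hN
  exact Module.finite_of_finrank_pos hpos

/-- `F_N` is finite over `E(y)` for every transcendental `y` (level `N ≠ 0`). -/
theorem finiteDimensional_of_transcendental_h439 (N : ℕ) (hN : N ≠ 0) {y : FE E N}
    (hy : Transcendental E y) :
    FiniteDimensional (adjoin E ({y} : Set (FE E N))) (FE E N) := by
  have hfin := finiteDimensional_j1_h439 E N hN
  exact Fermat.Agent.S24.FF.finiteDimensional_adjoin_of_transcendental
    (transcendental_j1_h439 E N) hy

section X3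

variable (M q : ℕ) [NeZero M] [NeZero q] [NeZero (M * q)]

/-- `vInf x = -(1 + q + q²)` at level `M q q`. -/
theorem vInf_x3E_h439 :
    vInf E (M * q * q) (x3E E M q) = ((-(1 + (q : ℤ) + q * q) : ℤ) : WithTop ℤ) := by
  rw [x3E, j1, jq, jqq,
    addVal_mul_coe _ (addVal_mul_coe _ (vInf_jE E (M * q * q) 1 (one_dvd _))
      (vInf_jE E (M * q * q) q (Dvd.intro_left (M * q) rfl)))
      (vInf_jE E (M * q * q) (q * q) ⟨M, by ring⟩)]
  congr 1
  push_cast
  ring

/-- `x = j j_q j_{q²}` is transcendental over `E`. -/
theorem transcendental_x3E_h439 : Transcendental E (x3E E M q) := by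
  refine transcendental_of_addVal_neg (vInf E (M * q * q))
    (fun c hc => vInf_algebraMap E _ hc) (a := -(1 + (q : ℤ) + q * q)) ?_ (vInf_x3E_h439 E M q)
  have h1 : (0 : ℤ) ≤ q := Int.natCast_nonneg q
  have h2 : (0 : ℤ) ≤ (q : ℤ) * q := mul_nonneg h1 h1
  omega

/-- The FF part of the three-component context, at every level `M q q` (no hypothesis on `q`). -/
theorem partFF_h439 : PartFF E (x3E E M q) where
  hx := transcendental_x3E_h439 E M q
  hfin := finiteDimensional_of_transcendental_h439 E (M * q * q)
    (Nat.mul_ne_zero (NeZero.ne (M * q)) (NeZero.ne q)) (transcendental_x3E_h439 E M q)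
  hconst := fun f hf => mem_range_of_isAlgebraic E (M * q * q) f hf

end X3

/-- **MOD3 leaf FF** (exact frozen leaf of `Mod3/Spec.lean`). -/
theorem leafFF : LeafFF := fun E M q _ _ _ _ _ => partFF_h439 E M q

end Fermat.Agent.S36.Mod3.H439

end
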