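import Fermat.Agent.S36.Mod3.H439.FF

/-!
# S36 / MOD3 leaf `LeafFin` (helper439)

The two degeneracy maps `α, β : F_{Mq} → F_{Mqq}` are finite: `F_{Mqq}` is finite over `E(y)` for
every transcendental `y` (`finiteDimensional_of_transcendental_h439`), in particular for
`y = φ(j)`, and `E(φ j) ⊆ φ(F_{Mq})`.

Main result: `leafFin : Mod3.LeafFin` (exact frozen leaf of `Mod3/Spec.lean`).
-/

set_option autoImplicit false
set_option linter.unusedSectionVars false
set_option linter.style.haveILetI false
set_option synthInstance.maxHeartbeats 400000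
set_option maxHeartbeats 1600000

noncomputable section

namespace Fermat.Agent.S36.Mod3.H439

open ModularCurve IntermediateField AlgebraicCurve
open Fermat.Agent.A2.Mod Fermat.Agent.A2.Mod.H816

section Abs

variable {K F F' : Type*} [Field K] [Field F] [Field F'] [Algebra K F] [Algebra K F']

/-- A `K`-embedding `φ : F → F'` is finite as soon as `F'` is finite over `K(φ y)` for some
`y ∈ F`. -/
theorem finiteAlong_of_finite_adjoin_h439 (φ : F →ₐ[K] F') (y : F)
    (hfin : FiniteDimensional K⟮φ y⟯ F') : FiniteAlong K φ := by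
  letI := algebraAlong φ
  show Module.Finite F F'
  obtain ⟨S, hS⟩ := (Module.finite_def (R := K⟮φ y⟯) (M := F')).mp hfin
  refine Module.finite_def.mpr ⟨S, ?_⟩
  have hle : K⟮φ y⟯ ≤ φ.fieldRange := by
    rw [adjoin_le_iff]
    rintro _ rfl
    exact ⟨y, rfl⟩
  have key : ∀ x : F', x ∈ Submodule.span K⟮φ y⟯ (S : Set F') →
      x ∈ Submodule.span F (S : Set F') := by
    intro x hx
    induction hx using Submodule.span_induction with
    | mem x hx => exact Submodule.subset_span hx
    | zero => exact zero_mem _
    | add x y _ _ hx hy => exact add_mem hx hy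
    | smul e x _ hx =>
      obtain ⟨f, hf⟩ := hle e.2
      have : e • x = f • x := by
        rw [Algebra.smul_def, Algebra.smul_def]
        show (e : F') * x = φ f * x
        rw [← hf]
        rfl
      rw [this]
      exact Submodule.smul_mem _ _ hx
  rw [eq_top_iff]
  intro x _
  exact key x (by rw [hS]; trivial)

end Abs

variable (E : IntermediateField ℚ A2.Qb)

/-- Every `E`-embedding `F_N → F_{N'}` (`N' ≠ 0`) of modular function fields is finite. -/
theorem finiteAlong_level_h439 (N N' : ℕ) (hN' : N' ≠ 0) (φ : FE E N →ₐ[E] FE E N') :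
    FiniteAlong E φ := by
  have hy : Transcendental E (φ (jE E N 1 (one_dvd N))) := fun h =>
    transcendental_j1_h439 E N ((isAlgebraic_algHom_iff φ φ.injective).mp h)
  exact finiteAlong_of_finite_adjoin_h439 φ (jE E N 1 (one_dvd N))
    (finiteDimensional_of_transcendental_h439 E N' hN' hy)

/-- **MOD3 leaf FIN** (exact frozen leaf of `Mod3/Spec.lean`). -/
theorem leafFin : LeafFin := fun E M q _ _ _ _ _ =>
  { fin_α := finiteAlong_level_h439 E (M * q) (M * q * q)
      (Nat.mul_ne_zero (NeZero.ne (M * q)) (NeZero.ne q)) _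
    fin_β := finiteAlong_level_h439 E (M * q) (M * q * q)
      (Nat.mul_ne_zero (NeZero.ne (M * q)) (NeZero.ne q)) _ }

end Fermat.Agent.S36.Mod3.H439

end
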